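/-
# Deligne–Serre (e4), step 1: Newton averaging

Let `π : B → B'` be a surjective ring homomorphism (rings not necessarily commutative) whose kernel
has square zero, and let `G` be a finite group whose order is invertible in `B`.  Then every group
homomorphism `G → B'ˣ` lifts to a group homomorphism `G → Bˣ`.

The lift is explicit: pick any set-theoretic lift `r : G → Bˣ` and put
`ρ g = (1/#G) ∑ₕ r (g h) (r h)⁻¹`.

Mathlib only.
-/
import Mathlib

set_option autoImplicit false

namespace Fermat.Agent.DS.Lift.Newton69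

open Finset

variable {B B' : Type*} [Ring B] [Ring B']

/-- Units lift along a surjective ring homomorphism with square-zero kernel. -/
theorem isUnit_of_isUnit_map (π : B →+* B') (hπ : Function.Surjective π)
    (hsq : ∀ x y, π x = 0 → π y = 0 → x * y = 0) (b : B) (hb : IsUnit (π b)) : IsUnit b := by
  obtain ⟨v, hv⟩ := hb
  obtain ⟨c, hc⟩ := hπ (↑v⁻¹ : B')
  have hx : π (b * c - 1) = 0 := by
    rw [map_sub, map_mul, hc, ← hv, Units.mul_inv, map_one, sub_self]
  have hy : π (c * b - 1) = 0 := by
    rw [map_sub, map_mul, hc, ← hv, Units.inv_mul, map_one, sub_self]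
  have hxx := hsq _ _ hx hx
  have hyy := hsq _ _ hy hy
  have h1 : b * (c * (2 - b * c)) = 1 := by
    have e : b * (c * (2 - b * c)) = 1 - (b * c - 1) * (b * c - 1) := by noncomm_ring
    rw [e, hxx, sub_zero]
  have h2 : ((2 - c * b) * c) * b = 1 := by
    have e : ((2 - c * b) * c) * b = 1 - (c * b - 1) * (c * b - 1) := by noncomm_ring
    rw [e, hyy, sub_zero]
  have h3 : (2 - c * b) * c = c * (2 - b * c) := by
    calc (2 - c * b) * c = (2 - c * b) * c * (b * (c * (2 - b * c))) := by rw [h1, mul_one]
      _ = ((2 - c * b) * c * b) * (c * (2 - b * c)) := by simp only [mul_assoc]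
      _ = c * (2 - b * c) := by rw [h2, one_mul]
  exact ⟨⟨b, c * (2 - b * c), h1, by rw [← h3]; exact h2⟩, rfl⟩

section Main

variable {G : Type*} [Group G] [Fintype G]
variable (π : B →+* B') (hsq : ∀ x y, π x = 0 → π y = 0 → x * y = 0)
variable (r : G → Bˣ) (ρ' : G →* B'ˣ) (hr : ∀ g, π (r g : B) = (ρ' g : B'))

/-- The (unnormalised) Newton average `S g = ∑ₕ r (g h) (r h)⁻¹`. -/
def avg (g : G) : B := ∑ h : G, (r (g * h) : B) * ((r h)⁻¹ : Bˣ)

/-- The defect `δ (g, h) = r (g h) - r g * r h`. -/
def defect (g h : G) : B := (r (g * h) : B) - (r g : B) * (r h : B)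

omit [Fintype G] in
include hr in
theorem map_defect (g h : G) : π (defect r g h) = 0 := by
  unfold defect
  rw [map_sub, map_mul, hr, hr, hr, map_mul, Units.val_mul, sub_self]

omit [Fintype G] in
include hr in
theorem map_inv (g : G) : π (((r g)⁻¹ : Bˣ) : B) = ((ρ' g)⁻¹ : B'ˣ) := by
  have h1 : π (((r g)⁻¹ : Bˣ) : B) * (ρ' g : B') = 1 := by
    rw [← hr, ← map_mul, Units.inv_mul, map_one]
  calc π (((r g)⁻¹ : Bˣ) : B) = π (((r g)⁻¹ : Bˣ) : B) * ((ρ' g : B') * ((ρ' g)⁻¹ : B'ˣ)) := by
        rw [Units.mul_inv, mul_one]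
    _ = ((ρ' g)⁻¹ : B'ˣ) := by rw [← mul_assoc, h1, one_mul]

/-- The sum of the defects, `D g = ∑ₕ δ (g, h) (r h)⁻¹`. -/
def dsum (g : G) : B := ∑ h : G, defect r g h * ((r h)⁻¹ : Bˣ)

include hr in
theorem map_dsum (g : G) : π (dsum r g) = 0 := by
  unfold dsum
  rw [map_sum]
  apply Finset.sum_eq_zero
  intro h _
  rw [map_mul, map_defect π r ρ' hr, zero_mul]

theorem avg_eq (g : G) : avg r g = (Fintype.card G : B) * (r g : B) + dsum r g := by
  unfold avg dsum defect
  have : ∀ h : G, (r (g * h) : B) * ((r h)⁻¹ : Bˣ) =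
      (r g : B) + ((r (g * h) : B) - (r g : B) * (r h : B)) * ((r h)⁻¹ : Bˣ) := by
    intro h
    rw [sub_mul, mul_assoc, Units.mul_inv, mul_one]
    abel
  rw [Finset.sum_congr rfl (fun h _ => this h), Finset.sum_add_distrib, Finset.sum_const,
    Finset.card_univ, nsmul_eq_mul]

omit [Fintype G] in
/-- The cocycle identity for the defect. -/
theorem defect_cocycle (g k h : G) :
    defect r g k * (r h : B) + defect r (g * k) h =
      (r g : B) * defect r k h + defect r g (k * h) := by
  unfold defect
  rw [mul_assoc g k h]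
  noncomm_ring

include hsq hr in
/-- The key identity: `r g * D k + D g * r k = N δ(g,k) + D (g k)`. -/
theorem key (g k : G) :
    (r g : B) * dsum r k + dsum r g * (r k : B) =
      (Fintype.card G : B) * defect r g k + dsum r (g * k) := by
  -- sum the cocycle identity times `(r h)⁻¹`
  have h1 : ∑ h : G, (defect r g k * (r h : B) + defect r (g * k) h) * ((r h)⁻¹ : Bˣ) =
      (Fintype.card G : B) * defect r g k + dsum r (g * k) := by
    have : ∀ h : G, (defect r g k * (r h : B) + defect r (g * k) h) * ((r h)⁻¹ : Bˣ) =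
        defect r g k + defect r (g * k) h * ((r h)⁻¹ : Bˣ) := by
      intro h
      rw [add_mul, mul_assoc, Units.mul_inv, mul_one]
    rw [Finset.sum_congr rfl (fun h _ => this h), Finset.sum_add_distrib, Finset.sum_const,
      Finset.card_univ, nsmul_eq_mul]
    rfl
  have h2 : ∑ h : G, ((r g : B) * defect r k h + defect r g (k * h)) * ((r h)⁻¹ : Bˣ) =
      (r g : B) * dsum r k + dsum r g * (r k : B) := by
    have : ∀ h : G, ((r g : B) * defect r k h + defect r g (k * h)) * ((r h)⁻¹ : Bˣ) =
        (r g : B) * (defect r k h * ((r h)⁻¹ : Bˣ)) +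
          defect r g (k * h) * ((r (k * h))⁻¹ : Bˣ) * (r k : B) := by
      intro h
      rw [add_mul, mul_assoc]
      congr 1
      -- `δ(g, kh) * ((r h)⁻¹ - (r (kh))⁻¹ r k) = 0`
      have hz : π ((((r h)⁻¹ : Bˣ) : B) - ((r (k * h))⁻¹ : Bˣ) * (r k : B)) = 0 := by
        rw [map_sub, map_mul, map_inv π r ρ' hr, map_inv π r ρ' hr, hr, map_mul, mul_inv_rev,
          Units.val_mul, mul_assoc, Units.inv_mul, mul_one, sub_self]
      have := hsq _ _ (map_defect π r ρ' hr g (k * h)) hz
      rw [mul_sub, sub_eq_zero, ← mul_assoc] at this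
      exact this
    rw [Finset.sum_congr rfl (fun h _ => this h), Finset.sum_add_distrib, ← Finset.mul_sum]
    congr 1
    unfold dsum
    rw [Finset.sum_mul]
    exact Fintype.sum_equiv (Equiv.mulLeft k) _ _ (fun h => rfl)
  rw [← h2, ← h1]
  exact Finset.sum_congr rfl (fun h _ => by rw [defect_cocycle])

include hsq hr in
/-- `S g * S k = N * S (g k)`. -/
theorem avg_mul (g k : G) :
    avg r g * avg r k = (Fintype.card G : B) * avg r (g * k) := by
  have hN : ∀ x : B, (Fintype.card G : B) * x = x * (Fintype.card G : B) :=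
    fun x => (Nat.cast_commute _ x).eq
  have hDD : dsum r g * dsum r k = 0 :=
    hsq _ _ (map_dsum π r ρ' hr g) (map_dsum π r ρ' hr k)
  have hkey := key π hsq r ρ' hr g k
  have hd : (r (g * k) : B) = (r g : B) * (r k : B) + defect r g k := by
    unfold defect; abel
  rw [avg_eq, avg_eq, avg_eq, hd]
  set n : B := (Fintype.card G : B) with hn
  set a := (r g : B)
  set b := (r k : B)
  set Dg := dsum r g
  set Dk := dsum r k
  set Dgk := dsum r (g * k)
  set d := defect r g k
  calc (n * a + Dg) * (n * b + Dk)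
      = n * a * (n * b) + n * a * Dk + Dg * (n * b) + Dg * Dk := by noncomm_ring
    _ = n * (n * (a * b)) + n * (a * Dk + Dg * b) := by
        rw [hDD, add_zero]
        have e1 : n * a * (n * b) = n * (n * (a * b)) := by
          rw [mul_assoc, ← mul_assoc a n b, ← hN a, mul_assoc n a b]
        have e2 : Dg * (n * b) = n * (Dg * b) := by
          rw [← mul_assoc, ← hN Dg, mul_assoc]
        rw [e1, e2, mul_assoc n a Dk, mul_add, add_assoc]
    _ = n * (n * (a * b + d) + Dgk) := by
        rw [hkey]
        noncomm_ring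

include hr in
theorem map_avg (g : G) : π (avg r g) = (Fintype.card G : B') * (ρ' g : B') := by
  unfold avg
  rw [map_sum]
  have : ∀ h : G, π ((r (g * h) : B) * ((r h)⁻¹ : Bˣ)) = (ρ' g : B') := by
    intro h
    rw [map_mul, hr, map_inv π r ρ' hr, map_mul, Units.val_mul, mul_assoc, Units.mul_inv, mul_one]
  rw [Finset.sum_congr rfl (fun h _ => this h), Finset.sum_const, Finset.card_univ, nsmul_eq_mul]

theorem avg_one : avg r 1 = (Fintype.card G : B) := by
  unfold avg
  have : ∀ h : G, (r (1 * h) : B) * ((r h)⁻¹ : Bˣ) = 1 := by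
    intro h
    rw [one_mul, Units.mul_inv]
  rw [Finset.sum_congr rfl (fun h _ => this h), Finset.sum_const, Finset.card_univ, nsmul_eq_mul,
    mul_one]

end Main

/-- **Newton averaging.** A group homomorphism `G → B'ˣ` lifts along a surjective ring
homomorphism `π : B → B'` with square-zero kernel, if `#G` is invertible in `B`. -/
theorem exists_lift {G : Type*} [Group G] [Fintype G] (π : B →+* B')
    (hπ : Function.Surjective π) (hsq : ∀ x y, π x = 0 → π y = 0 → x * y = 0)
    (hN : IsUnit (Fintype.card G : B)) (ρ' : G →* B'ˣ) :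
    ∃ ρ : G →* Bˣ, ∀ g, π (ρ g : B) = (ρ' g : B') := by
  classical
  -- a set-theoretic lift by units
  have hex : ∀ g : G, ∃ u : Bˣ, π (u : B) = (ρ' g : B') := by
    intro g
    obtain ⟨b, hb⟩ := hπ (ρ' g : B')
    have hu : IsUnit b := isUnit_of_isUnit_map π hπ hsq b (by rw [hb]; exact (ρ' g).isUnit)
    exact ⟨hu.unit, by rw [IsUnit.unit_spec, hb]⟩
  choose r hr using hex
  obtain ⟨u, hu⟩ := hN
  set ν : B := ((u⁻¹ : Bˣ) : B) with hν
  have hcomm : ∀ x : B, ν * x = x * ν := by
    intro x
    have h1 : (u : B) * x = x * (u : B) := by rw [hu]; exact (Nat.cast_commute _ x).eq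
    calc ν * x = ν * x * ((u : B) * ν) := by rw [hν, Units.mul_inv, mul_one]
      _ = ν * (x * (u : B)) * ν := by simp only [mul_assoc]
      _ = ν * ((u : B) * x) * ν := by rw [h1]
      _ = (ν * (u : B)) * x * ν := by simp only [mul_assoc]
      _ = x * ν := by rw [hν, Units.inv_mul, one_mul]
  have hνN : ν * (Fintype.card G : B) = 1 := by rw [← hu, hν, Units.inv_mul]
  -- the monoid homomorphism into `B`
  let ρ₀ : G →* B :=
    { toFun := fun g => ν * avg r g
      map_one' := by
        show ν * avg r 1 = 1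
        rw [avg_one, hνN]
      map_mul' := by
        intro g k
        show ν * avg r (g * k) = ν * avg r g * (ν * avg r k)
        calc ν * avg r (g * k) = ν * (ν * (Fintype.card G : B)) * avg r (g * k) := by
              rw [hνN, mul_one]
          _ = ν * ν * ((Fintype.card G : B) * avg r (g * k)) := by simp only [mul_assoc]
          _ = ν * ν * (avg r g * avg r k) := by rw [avg_mul π hsq r ρ' hr]
          _ = ν * (ν * avg r g) * avg r k := by simp only [mul_assoc]
          _ = ν * (avg r g * ν) * avg r k := by rw [hcomm (avg r g)]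
          _ = ν * avg r g * (ν * avg r k) := by simp only [mul_assoc] }
  refine ⟨ρ₀.toHomUnits, ?_⟩
  intro g
  show π (ν * avg r g) = (ρ' g : B')
  rw [map_mul, map_avg π r ρ' hr, ← mul_assoc]
  have : π ν * (Fintype.card G : B') = 1 := by
    have := congrArg π hνN
    rwa [map_mul, map_natCast, map_one] at this
  rw [this, one_mul]

end Fermat.Agent.DS.Lift.Newton69
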