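/-
# Deligne–Serre (e4), step 2: lifting representations of finite groups to adically complete rings

Let `S` be a commutative ring which is `I`-adically complete, `π₀ : S → k₀` a surjection with
kernel `I`, and `G` a finite group whose order is invertible in `S`.  Then every homomorphism
`G → GLₙ(k₀)` lifts to a homomorphism `G → GLₙ(S)`.

Mathlib only (plus `Newton69`).
-/
import Mathlib
import Fermat.Agent.DS.Lift.Newton69

set_option autoImplicit false

namespace Fermat.Agent.DS.Lift.AdicLift69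

open Matrix Ideal Ideal.Quotient

variable {S : Type*} [CommRing S] (I : Ideal S)
variable {G : Type*} [Group G] [Fintype G]
variable {n : Type*} [Fintype n] [DecidableEq n]

theorem mapMatrix_surjective {R R' : Type*} [Semiring R] [Semiring R'] (f : R →+* R')
    (hf : Function.Surjective f) : Function.Surjective (f.mapMatrix (m := n)) := by
  intro M
  refine ⟨Matrix.of fun i j => (hf (M i j)).choose, ?_⟩
  ext i j
  simp [(hf (M i j)).choose_spec]

/-- The kernel of `S ⧸ I^(k+1) → S ⧸ I^k` has square zero, for `k ≥ 1`. -/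
theorem factorPow_ker_sq_zero (k : ℕ) (hk : 0 < k) (a b : S ⧸ I ^ (k + 1))
    (ha : factorPow I (Nat.le_succ k) a = 0) (hb : factorPow I (Nat.le_succ k) b = 0) :
    a * b = 0 := by
  have hker := factor_ker (pow_le_pow_right (I := I) (Nat.le_succ k))
  have ha' : a ∈ (I ^ k).map (Ideal.Quotient.mk (I ^ (k + 1))) := by
    rw [← hker]; exact ha
  have hb' : b ∈ (I ^ k).map (Ideal.Quotient.mk (I ^ (k + 1))) := by
    rw [← hker]; exact hb
  obtain ⟨a', ha'', rfl⟩ := Ideal.mem_image_of_mem_map_of_surjective _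
    Ideal.Quotient.mk_surjective ha'
  obtain ⟨b', hb'', rfl⟩ := Ideal.mem_image_of_mem_map_of_surjective _
    Ideal.Quotient.mk_surjective hb'
  rw [← map_mul, Ideal.Quotient.eq_zero_iff_mem]
  have h1 : a' * b' ∈ I ^ k * I ^ k := Ideal.mul_mem_mul ha'' hb''
  rw [← pow_add] at h1
  exact Ideal.pow_le_pow_right (by omega) h1

/-- One step of the tower. -/
theorem exists_lift_succ (hN : IsUnit (Fintype.card G : S)) (k : ℕ) (hk : 0 < k)
    (ρ' : G →* GL n (S ⧸ I ^ k)) :
    ∃ ρ : G →* GL n (S ⧸ I ^ (k + 1)),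
      ∀ g, Matrix.GeneralLinearGroup.map (factorPow I (Nat.le_succ k)) (ρ g) = ρ' g := by
  have hsurj : Function.Surjective (factorPow I (Nat.le_succ k)) :=
    factor_surjective (pow_le_pow_right (Nat.le_succ k))
  have hsq : ∀ x y : Matrix n n (S ⧸ I ^ (k + 1)),
      (factorPow I (Nat.le_succ k)).mapMatrix x = 0 →
      (factorPow I (Nat.le_succ k)).mapMatrix y = 0 → x * y = 0 := by
    intro x y hx hy
    ext i j
    rw [Matrix.mul_apply, Matrix.zero_apply]
    apply Finset.sum_eq_zero
    intro l _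
    apply factorPow_ker_sq_zero I k hk
    · have := congrFun (congrFun hx i) l
      simpa using this
    · have := congrFun (congrFun hy l) j
      simpa using this
  have hN' : IsUnit (Fintype.card G : Matrix n n (S ⧸ I ^ (k + 1))) := by
    have := hN.map ((algebraMap (S ⧸ I ^ (k + 1)) (Matrix n n (S ⧸ I ^ (k + 1)))).comp
      (Ideal.Quotient.mk (I ^ (k + 1))))
    rwa [map_natCast] at this
  obtain ⟨ρ, hρ⟩ := Newton69.exists_lift (factorPow I (Nat.le_succ k)).mapMatrix
    (mapMatrix_surjective _ hsurj) hsq hN' ρ'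
  exact ⟨ρ, fun g => Units.ext (hρ g)⟩

/-! ### The tower -/

/-- The tower of lifts `G → GLₙ(S ⧸ I^(k+1))`. -/
noncomputable def tower (hN : IsUnit (Fintype.card G : S)) (ρ0 : G →* GL n (S ⧸ I ^ (0 + 1))) :
    (k : ℕ) → (G →* GL n (S ⧸ I ^ (k + 1)))
  | 0 => ρ0
  | k + 1 => (exists_lift_succ I hN (k + 1) (Nat.succ_pos k) (tower hN ρ0 k)).choose

theorem tower_zero (hN : IsUnit (Fintype.card G : S)) (ρ0 : G →* GL n (S ⧸ I ^ (0 + 1))) :
    tower I hN ρ0 0 = ρ0 := rfl

theorem tower_succ (hN : IsUnit (Fintype.card G : S)) (ρ0 : G →* GL n (S ⧸ I ^ (0 + 1)))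
    (k : ℕ) (g : G) :
    Matrix.GeneralLinearGroup.map (factorPow I (Nat.le_succ (k + 1))) (tower I hN ρ0 (k + 1) g) =
      tower I hN ρ0 k g :=
  (exists_lift_succ I hN (k + 1) (Nat.succ_pos k) (tower I hN ρ0 k)).choose_spec g

theorem tower_succ_apply (hN : IsUnit (Fintype.card G : S)) (ρ0 : G →* GL n (S ⧸ I ^ (0 + 1)))
    (k : ℕ) (g : G) (i j : n) :
    factorPow I (Nat.le_succ (k + 1)) ((tower I hN ρ0 (k + 1) g).val i j) =
      (tower I hN ρ0 k g).val i j := by
  have := congrArg (fun M : GL n (S ⧸ I ^ (k + 1)) => M.val i j) (tower_succ I hN ρ0 k g)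
  simpa using this

/-! ### The ring of compatible sequences -/

/-- The ring of compatible sequences in `∏ₖ S ⧸ I^(k+1)`. -/
def compat : Subring (∀ k : ℕ, S ⧸ I ^ (k + 1)) where
  carrier := {x | ∀ k, factorPow I (Nat.le_succ (k + 1)) (x (k + 1)) = x k}
  mul_mem' := by
    intro a b ha hb k
    show factorPow I (Nat.le_succ (k + 1)) (a (k + 1) * b (k + 1)) = a k * b k
    rw [map_mul, ha k, hb k]
  one_mem' := by
    intro k
    show factorPow I (Nat.le_succ (k + 1)) 1 = 1
    rw [map_one]
  add_mem' := by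
    intro a b ha hb k
    show factorPow I (Nat.le_succ (k + 1)) (a (k + 1) + b (k + 1)) = a k + b k
    rw [map_add, ha k, hb k]
  zero_mem' := by
    intro k
    show factorPow I (Nat.le_succ (k + 1)) 0 = 0
    rw [map_zero]
  neg_mem' := by
    intro a ha k
    show factorPow I (Nat.le_succ (k + 1)) (-a (k + 1)) = -a k
    rw [map_neg, ha k]

/-- The projections of the ring of compatible sequences. -/
def proj (k : ℕ) : compat I →+* S ⧸ I ^ (k + 1) :=
  (Pi.evalRingHom (fun k : ℕ => S ⧸ I ^ (k + 1)) k).comp (compat I).subtype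

theorem succ_strictMono : StrictMono (fun k : ℕ => k + 1) := fun _ _ h => Nat.succ_lt_succ h

theorem proj_compat {m : ℕ} :
    (factorPow I ((succ_strictMono).monotone m.le_succ)).comp (proj I (m + 1)) = proj I m := by
  ext x
  exact x.2 m

variable [IsAdicComplete I S]

/-- The limit map from compatible sequences to `S`. -/
noncomputable def limHom : compat I →+* S :=
  IsAdicComplete.StrictMono.liftRingHom I succ_strictMono (proj I) (proj_compat I)

theorem mk_limHom (k : ℕ) (x : compat I) :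
    Ideal.Quotient.mk (I ^ (k + 1)) (limHom I x) = x.1 k :=
  IsAdicComplete.StrictMono.mk_liftRingHom I succ_strictMono (proj I) (proj_compat I) x

/-- Two elements of `S` with the same images in all `S ⧸ I^(k+1)` are equal. -/
theorem eq_of_forall_mk_eq {x y : S}
    (h : ∀ k : ℕ, Ideal.Quotient.mk (I ^ (k + 1)) x = Ideal.Quotient.mk (I ^ (k + 1)) y) :
    x = y := by
  have := IsHausdorff.StrictMono.funext' (R := Unit) I (f := fun _ => x) (g := fun _ => y)
    succ_strictMono (fun k _ => h k)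
  exact congrFun this ()

/-! ### The limit representation -/

/-- The entries of the limit representation, as compatible sequences. -/
noncomputable def entrySeq (hN : IsUnit (Fintype.card G : S)) (ρ0 : G →* GL n (S ⧸ I ^ (0 + 1)))
    (g : G) (i j : n) : compat I :=
  ⟨fun k => (tower I hN ρ0 k g).val i j, fun k => tower_succ_apply I hN ρ0 k g i j⟩

/-- The limit matrix. -/
noncomputable def limMat (hN : IsUnit (Fintype.card G : S)) (ρ0 : G →* GL n (S ⧸ I ^ (0 + 1)))
    (g : G) : Matrix n n S :=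
  Matrix.of fun i j => limHom I (entrySeq I hN ρ0 g i j)

theorem mk_limMat (hN : IsUnit (Fintype.card G : S)) (ρ0 : G →* GL n (S ⧸ I ^ (0 + 1)))
    (k : ℕ) (g : G) :
    (Ideal.Quotient.mk (I ^ (k + 1))).mapMatrix (limMat I hN ρ0 g) = (tower I hN ρ0 k g).val := by
  ext i j
  simp only [RingHom.mapMatrix_apply, Matrix.map_apply, limMat, Matrix.of_apply]
  exact mk_limHom I k _

/-- Two matrices over `S` with the same images over all `S ⧸ I^(k+1)` are equal. -/
theorem mat_eq_of_forall_mk_eq {A A' : Matrix n n S}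
    (h : ∀ k : ℕ, (Ideal.Quotient.mk (I ^ (k + 1))).mapMatrix A =
      (Ideal.Quotient.mk (I ^ (k + 1))).mapMatrix A') : A = A' := by
  ext i j
  apply eq_of_forall_mk_eq I
  intro k
  have := congrFun (congrFun (h k) i) j
  simpa using this

/-- The limit representation as a monoid homomorphism into matrices. -/
noncomputable def limHomMat (hN : IsUnit (Fintype.card G : S))
    (ρ0 : G →* GL n (S ⧸ I ^ (0 + 1))) : G →* Matrix n n S where
  toFun := limMat I hN ρ0
  map_one' := by
    apply mat_eq_of_forall_mk_eq I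
    intro k
    rw [mk_limMat, map_one, map_one, Units.val_one]
  map_mul' := by
    intro g h
    apply mat_eq_of_forall_mk_eq I
    intro k
    rw [map_mul, mk_limMat, mk_limMat, mk_limMat, map_mul, Units.val_mul]

/-- **Lifting along `S → S ⧸ I^(0+1)`.** -/
theorem exists_lift_pow_one (hN : IsUnit (Fintype.card G : S))
    (ρ0 : G →* GL n (S ⧸ I ^ (0 + 1))) :
    ∃ ρ : G →* GL n S,
      ∀ g, Matrix.GeneralLinearGroup.map (Ideal.Quotient.mk (I ^ (0 + 1))) (ρ g) = ρ0 g := by
  refine ⟨(limHomMat I hN ρ0).toHomUnits, ?_⟩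
  intro g
  apply Units.ext
  exact mk_limMat I hN ρ0 0 g

/-- **Lifting representations of finite groups to adically complete rings.**  Let `S` be
`I`-adically complete, `π₀ : S → k₀` surjective with kernel `I`, and `G` a finite group of order
invertible in `S`.  Every `ρ̄ : G → GLₙ(k₀)` lifts to `ρ : G → GLₙ(S)`. -/
theorem exists_lift {k₀ : Type*} [CommRing k₀] (π₀ : S →+* k₀) (hπ₀ : Function.Surjective π₀)
    (hker : RingHom.ker π₀ = I) (hN : IsUnit (Fintype.card G : S)) (ρbar : G →* GL n k₀) :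
    ∃ ρ : G →* GL n S, ∀ g, Matrix.GeneralLinearGroup.map π₀ (ρ g) = ρbar g := by
  have hle : ∀ a ∈ I ^ (0 + 1), π₀ a = 0 := by
    intro a ha
    rw [zero_add, pow_one, ← hker] at ha
    exact ha
  set f : S ⧸ I ^ (0 + 1) →+* k₀ := Ideal.Quotient.lift (I ^ (0 + 1)) π₀ hle with hf
  have hfmk : f.comp (Ideal.Quotient.mk (I ^ (0 + 1))) = π₀ := by
    ext x; simp [hf]
  have hfinj : Function.Injective f := by
    apply RingHom.lift_injective_of_ker_le_ideal
    rw [hker, zero_add, pow_one]
  have hfsurj : Function.Surjective f := by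
    intro y
    obtain ⟨x, rfl⟩ := hπ₀ y
    exact ⟨Ideal.Quotient.mk _ x, by simp [hf]⟩
  set e : S ⧸ I ^ (0 + 1) ≃+* k₀ := RingEquiv.ofBijective f ⟨hfinj, hfsurj⟩ with he
  set ρ0 : G →* GL n (S ⧸ I ^ (0 + 1)) :=
    (Matrix.GeneralLinearGroup.map (n := n) (e.symm : k₀ →+* S ⧸ I ^ (0 + 1))).comp ρbar with hρ0
  obtain ⟨ρ, hρ⟩ := exists_lift_pow_one I hN ρ0
  refine ⟨ρ, fun g => ?_⟩
  have h1 : Matrix.GeneralLinearGroup.map π₀ (ρ g) =
      Matrix.GeneralLinearGroup.map f
        (Matrix.GeneralLinearGroup.map (Ideal.Quotient.mk (I ^ (0 + 1))) (ρ g)) := by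
    rw [← hfmk]
    rfl
  rw [h1, hρ g, hρ0]
  apply Units.ext
  ext i j
  show f ((e.symm : k₀ →+* S ⧸ I ^ (0 + 1)) ((ρbar g).val i j)) = (ρbar g).val i j
  exact e.apply_symm_apply _

end Fermat.Agent.DS.Lift.AdicLift69
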