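/-
# Deligne–Serre (e4), step 3: lifting to `ℤ_ℓ`

A representation `G → GLₙ(𝔽_ℓ)` of a finite group of order prime to `ℓ` lifts to `GLₙ(ℤ_ℓ)`.  In
particular a subgroup `G ≤ GL₂(𝔽_ℓ)` of order prime to `ℓ` lifts to `GL₂(ℤ_ℓ)`.

Mathlib only (plus `AdicLift69`).
-/
import Mathlib
import Fermat.Agent.DS.Lift.AdicLift69

set_option autoImplicit false

namespace Fermat.Agent.DS.Lift.PadicLift69

open Matrix

variable {ℓ : ℕ} [Fact ℓ.Prime]

theorem isUnit_natCast_padicInt {N : ℕ} (hN : ¬ ℓ ∣ N) : IsUnit (N : ℤ_[ℓ]) := by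
  rw [← IsLocalRing.notMem_maximalIdeal, ← PadicInt.ker_toZMod, RingHom.mem_ker, map_natCast,
    ZMod.natCast_eq_zero_iff]
  exact hN

/-- **Lifting to `ℤ_ℓ`.** -/
theorem exists_lift_padic {G : Type*} [Group G] [Fintype G] (hℓ : ¬ ℓ ∣ Fintype.card G)
    {n : Type*} [Fintype n] [DecidableEq n] (ρbar : G →* GL n (ZMod ℓ)) :
    ∃ ρ : G →* GL n ℤ_[ℓ],
      ∀ g, Matrix.GeneralLinearGroup.map (PadicInt.toZMod (p := ℓ)) (ρ g) = ρbar g :=
  AdicLift69.exists_lift (IsLocalRing.maximalIdeal ℤ_[ℓ]) PadicInt.toZMod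
    (ZMod.ringHom_surjective PadicInt.toZMod) PadicInt.ker_toZMod
    (isUnit_natCast_padicInt hℓ) ρbar

/-- **A subgroup of `GL₂(𝔽_ℓ)` of order prime to `ℓ` lifts to `GL₂(ℤ_ℓ)`.** -/
theorem exists_lift_subgroup (G : Subgroup (GL (Fin 2) (ZMod ℓ))) (hℓ : ¬ ℓ ∣ Nat.card G) :
    ∃ ρ : G →* GL (Fin 2) ℤ_[ℓ],
      ∀ g : G, Matrix.GeneralLinearGroup.map (PadicInt.toZMod (p := ℓ)) (ρ g) = (g : GL (Fin 2) (ZMod ℓ)) := by
  classical
  have : Fintype G := Fintype.ofFinite G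
  rw [Nat.card_eq_fintype_card] at hℓ
  exact exists_lift_padic hℓ G.subtype

/-- The lift of a subgroup is injective. -/
theorem lift_injective (G : Subgroup (GL (Fin 2) (ZMod ℓ))) (ρ : G →* GL (Fin 2) ℤ_[ℓ])
    (hρ : ∀ g : G, Matrix.GeneralLinearGroup.map (PadicInt.toZMod (p := ℓ)) (ρ g) =
      (g : GL (Fin 2) (ZMod ℓ))) : Function.Injective ρ := by
  intro g h hgh
  apply Subtype.ext
  rw [← hρ g, ← hρ h, hgh]

end Fermat.Agent.DS.Lift.PadicLift69
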